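import Fermat.Agent.S18.RED.Defs
import Fermat.Agent.S28.AN.Assemble
import Fermat.Agent.S28.Span
import Fermat.Agent.S28.IsIntegralY
import Fermat.Agent.S28.RedIndep

/-!
# S18 / RED piece 0, helper file (helper262)
-/

set_option autoImplicit false

noncomputable section

namespace Fermat.Agent.S18.RED262

open ModularCurve ModularCurve.IgusaScheme Polynomial
open Fermat.Agent.S28 Fermat.Agent.S28.QRed Fermat.Agent.S18

variable (N : ℕ) [NeZero N] (ℓ : ℕ) [Fact ℓ.Prime]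

set_option quotPrecheck false in
local notation "Rl" => ↥(GaloisRep.ratLocalizedAt ℓ)

set_option quotPrecheck false in
local notation "FF" => ↥(modularFunctionFieldFull N)

/-- the interface of the landed S28 core, for the eta-quotient unit -/
theorem exists_interface (hℓN : ¬ ℓ ∣ N) :
    ∃ n : ℕ, Interface N ℓ n (fun i : Fin n => (yUnit Rl N : LaurentSeries Rl) ^ (i : ℕ)) := by
  obtain ⟨D⟩ := exists_ANData N
  exact ⟨_, interface_of_yUnit N ℓ _ (isIntegral_yUnit N ℓ hℓN D)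
    (fun a h => linearIndependent_red_yUnit N ℓ hℓN D a h) (span_of_ANData N D)⟩

theorem key_mid (hℓN : ¬ ℓ ∣ N) (z : FF) (hzV : valF N z ∈ Vring ℓ)
    (hz : (ℓ : FF) * z ∈ chartAlgMid N ℓ) : z ∈ chartAlgMid N ℓ := by
  obtain ⟨n, H⟩ := exists_interface N ℓ hℓN
  have hz' : (ℓ : FF) * z ∈ chartAlg N ℓ (insert (jFull N)⁻¹ {jFull N}) := by
    rw [show insert (jFull N)⁻¹ ({jFull N} : Set FF) = {jFull N, (jFull N)⁻¹}
      from Set.pair_comm _ _]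
    exact hz
  obtain ⟨m, hm⟩ := exists_pow_mul_mem_chartAlg (Set.mem_singleton _) (jFull_ne_zero N) hz'
  have h1 : (ℓ : FF) * ((jFull N) ^ m * z) ∈ chartAlgFin N ℓ := by
    rw [mul_left_comm]; exact hm
  have h2 : valF N ((jFull N) ^ m * z) ∈ Vring ℓ := by
    rw [map_mul, map_pow]
    exact mul_mem (pow_mem (jFull_mem_Vring N ℓ) m) hzV
  have h3 := key_fin N ℓ H _ h2 h1
  have h4 : (jFull N) ^ m * z ∈ chartAlgMid N ℓ := chartAlg_mono N ℓ (sFin_subset N) h3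
  have h5 : ((jFull N)⁻¹) ^ m ∈ chartAlgMid N ℓ :=
    pow_mem (subset_chartAlg N ℓ _ (by simp)) m
  have h6 : z = ((jFull N)⁻¹) ^ m * ((jFull N) ^ m * z) := by
    rw [← mul_assoc, ← mul_pow, inv_mul_cancel₀ (jFull_ne_zero N), one_pow, one_mul]
  rw [h6]
  exact mul_mem h5 h4

/-! ### the Gauss ring -/

theorem mid_mem_Vring (x : FF) (hx : x ∈ chartAlgMid N ℓ) : valF N x ∈ Vring ℓ :=
  valF_mem_Vring_of_mem_chartAlg N ℓ {jFull N, (jFull N)⁻¹} (by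
    rintro s (rfl | rfl)
    · exact jFull_mem_Vring N ℓ
    · exact jFull_inv_mem_Vring N ℓ) x hx

theorem redO_eq_redV (z : OQ N ℓ) : redO N ℓ z = redV ℓ ⟨valF N z, z.2⟩ := rfl

theorem ker_redO_aux (z : OQ N ℓ) (h : redO N ℓ z = 0) :
    ∃ z' : OQ N ℓ, z = (ℓ : OQ N ℓ) * z' := by
  rw [redO_eq_redV] at h
  obtain ⟨v', hv'⟩ := redV_eq_zero ℓ _ h
  simp only at hv'
  rw [iota_lW] at hv'
  have hzx : (ℓ : FF) * ((ℓ : FF)⁻¹ * (z : FF)) = z :=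
    mul_inv_cancel_left₀ (natCast_ne_zero_FF N ℓ) _
  have hzV : valF N ((ℓ : FF)⁻¹ * (z : FF)) ∈ Vring ℓ := by
    have : valF N ((ℓ : FF)⁻¹ * (z : FF)) = v' := by
      apply mul_left_cancel₀ (natCast_ne_zero_laurent ℓ)
      rw [← valF_natCast N, ← map_mul, hzx, valF_natCast]
      exact hv'
    rw [this]
    exact v'.2
  refine ⟨⟨_, hzV⟩, Subtype.ext ?_⟩
  rw [Subring.coe_mul, Subring.coe_natCast]
  exact hzx.symm

theorem redO_natCast_self : redO N ℓ (ℓ : OQ N ℓ) = 0 := by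
  rw [map_natCast, ← map_natCast (algebraMap (ZMod ℓ) (LaurentSeries (ZMod ℓ))),
    ZMod.natCast_self, map_zero]

/-- an element of the Gauss ring with nonzero reduction is a unit -/
theorem inv_mem_Vring (x : LaurentSeries ℚ) (hx : x ∈ Vring ℓ) (h : redV ℓ ⟨x, hx⟩ ≠ 0) :
    x⁻¹ ∈ Vring ℓ := by
  obtain ⟨z, hz⟩ := hx
  have hzK : toK ℓ z ≠ 0 := by
    rwa [redV_eq ℓ ⟨x, ⟨z, hz⟩⟩ z hz] at h
  obtain ⟨f, s, rfl⟩ := IsLocalization.exists_mk'_eq (RingHom.ker (red ℓ)).primeCompl z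
  have hf : red ℓ f ≠ 0 := by
    intro hf0
    apply hzK
    exact (IsLocalization.lift_mk'_spec (isUnit_red_of_mem ℓ) f 0 s).mpr (by simp [hf0])
  have hfm : f ∈ (RingHom.ker (red ℓ)).primeCompl := fun h => hf (RingHom.mem_ker.mp h)
  refine ⟨IsLocalization.mk' (Ploc ℓ) (s : LaurentSeries Rl) ⟨f, hfm⟩, ?_⟩
  have h1 := toQ_mk'_mul ℓ f s
  have h2 := toQ_mk'_mul ℓ (s : LaurentSeries Rl) ⟨f, hfm⟩
  simp only at h1 h2
  rw [hz] at h1
  have hs0 : iota ℓ (s : LaurentSeries Rl) ≠ 0 := (isUnit_iota_of_mem ℓ s).ne_zero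
  have hf0 : iota ℓ f ≠ 0 := (isUnit_iota_of_mem ℓ ⟨f, hfm⟩).ne_zero
  apply eq_inv_of_mul_eq_one_left
  apply mul_right_cancel₀ hs0
  rw [one_mul, mul_assoc, h1, h2]

/-- every nonzero element of `F_N` is `ℓ^k` times a unit of the Gauss ring -/
theorem exists_zpow_mul_unit (x : FF) (hx : x ≠ 0) :
    ∃ (k : ℤ) (u : FF) (hu : u ∈ OQ N ℓ),
      redO N ℓ ⟨u, hu⟩ ≠ 0 ∧ x = (ℓ : FF) ^ k * u := by
  obtain ⟨f, g, hg, hfg⟩ := isFrac_of_mem_full ℓ N x.2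
  have hg' := iota_ne_zero ℓ hg
  have hf : f ≠ 0 := by
    rintro rfl
    rw [map_zero] at hfg
    rcases mul_eq_zero.mp hfg with h | h
    · exact hx (Subtype.ext h)
    · exact hg' h
  obtain ⟨a, f', rfl, hf'⟩ := exists_eq_pow_mul ℓ f hf
  obtain ⟨b, g', rfl, hg'r⟩ := exists_eq_pow_mul ℓ g hg
  have hfm : f' ∈ (RingHom.ker (red ℓ)).primeCompl := fun h => hf' (RingHom.mem_ker.mp h)
  have hgm : g' ∈ (RingHom.ker (red ℓ)).primeCompl := fun h => hg'r (RingHom.mem_ker.mp h)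
  have hg'0 : iota ℓ g' ≠ 0 := (isUnit_iota_of_mem ℓ ⟨g', hgm⟩).ne_zero
  have hℓ0 : (ℓ : FF) ≠ 0 := natCast_ne_zero_FF N ℓ
  have hℓL : (ℓ : LaurentSeries ℚ) ≠ 0 := natCast_ne_zero_laurent ℓ
  set u : FF := (ℓ : FF) ^ ((b : ℤ) - a) * x with hu
  have hxu : x = (ℓ : FF) ^ ((a : ℤ) - b) * u := by
    rw [hu, ← mul_assoc, ← zpow_add₀ hℓ0]
    simp
  have huval : valF N u * iota ℓ g' = iota ℓ f' := by
    have h1 : valF N x * ((ℓ : LaurentSeries ℚ) ^ b * iota ℓ g') =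
        (ℓ : LaurentSeries ℚ) ^ a * iota ℓ f' := by
      have := hfg
      rw [map_mul, map_mul, map_pow, map_pow, iota_lW] at this
      exact this
    have h2 : valF N u = (ℓ : LaurentSeries ℚ) ^ ((b : ℤ) - a) * valF N x := by
      rw [hu, map_mul, map_zpow₀, valF_natCast]
    rw [h2]
    have h3 : (ℓ : LaurentSeries ℚ) ^ ((b : ℤ) - a) =
        (ℓ : LaurentSeries ℚ) ^ b * ((ℓ : LaurentSeries ℚ) ^ a)⁻¹ := by
      rw [zpow_sub₀ hℓL, zpow_natCast, zpow_natCast, div_eq_mul_inv]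
    rw [h3]
    have h4 : (ℓ : LaurentSeries ℚ) ^ a ≠ 0 := pow_ne_zero _ hℓL
    field_simp
    linear_combination h1
  have huV : valF N u = toQ ℓ (IsLocalization.mk' (Ploc ℓ) f' ⟨g', hgm⟩) := by
    apply mul_right_cancel₀ hg'0
    rw [huval]
    exact (toQ_mk'_mul ℓ f' ⟨g', hgm⟩).symm
  have humem : u ∈ OQ N ℓ := ⟨_, huV.symm⟩
  refine ⟨(a : ℤ) - b, u, humem, ?_, hxu⟩
  rw [redO_eq_redV, redV_eq ℓ _ _ huV.symm]
  intro h0
  have h5 := (IsLocalization.lift_mk'_spec (isUnit_red_of_mem ℓ) f'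
    (0 : LaurentSeries (ZMod ℓ)) ⟨g', hgm⟩).mp h0
  simp at h5
  exact hf' h5

/-- the key relation in characteristic zero -/
theorem exists_rel {n : ℕ} {β : Fin n → LaurentSeries Rl} (H : Interface N ℓ n β) (z : FF)
    (hzV : valF N z ∈ Vring ℓ) :
    ∃ (d₀ : Rl[X]) (a : Fin n → Rl[X]), d₀.map (rho0 ℓ) ≠ 0 ∧
      valF N z * iota ℓ (aeval (jqModC Rl) d₀) =
        iota ℓ (∑ i, aeval (jqModC Rl) (a i) * β i) := by
  obtain ⟨b, a, hb, hrel⟩ := H.span (valF N z) z.2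
  obtain ⟨m, b', a', hm, hb', ha'⟩ := exists_common_int_mul ℓ b a
  have hmQ : (m : ℚ) ≠ 0 := fun h => hm (Subtype.ext h)
  have hb'0 : b' ≠ 0 := by
    intro h
    rw [h, Polynomial.map_zero] at hb'
    exact (mul_ne_zero (C_ne_zero.mpr hmQ) hb) hb'.symm
  have hrel' : valF N z * iota ℓ (aeval (jqModC Rl) b') =
      iota ℓ (∑ i, aeval (jqModC Rl) (a' i) * β i) := by
    rw [iota_aeval, hb', map_sum]
    simp only [map_mul, iota_aeval, ha', aeval_C]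
    rw [mul_left_comm, hrel, Finset.mul_sum]
    exact Finset.sum_congr rfl fun i _ => by ring
  obtain ⟨k, d₀, rfl, hd₀⟩ := poly_exists_eq_pow_mul ℓ b' hb'0
  obtain ⟨w, hw⟩ := hzV
  rw [← hw] at hrel'
  obtain ⟨a'', ha''⟩ := key_induction ℓ n β H.indep w k d₀ a' hrel'
  rw [hw] at ha''
  exact ⟨d₀, a'', hd₀, ha''⟩

theorem exists_frac_fin (hℓN : ¬ ℓ ∣ N) (z : FF) (hz : z ∈ OQ N ℓ) :
    ∃ a b : chartAlgFin N ℓ, redFin N ℓ b ≠ 0 ∧ z * (b : FF) = (a : FF) := by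
  obtain ⟨n, H⟩ := exists_interface N ℓ hℓN
  obtain ⟨d₀, a'', hd₀, ha''⟩ := exists_rel N ℓ H z hz
  have hbmem : evF N ℓ (jFull N) d₀ ∈ chartAlgFin N ℓ :=
    adjoin_le_chartAlg N ℓ _ (Polynomial.aeval_mem_adjoin_singleton _ _)
  have h₂ : (evF N ℓ (jFull N)).IsIntegralElem (evF N ℓ (jFull N) d₀ * z) := by
    apply isIntegralElem_of_valF
    rw [map_mul, valF_evF_jFull, mul_comm, ha'', map_sum]
    refine Finset.sum_induction _ _ (fun _ _ => RingHom.IsIntegralElem.add _)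
      (RingHom.isIntegralElem_zero _) ?_
    intro i _
    rw [map_mul, ← valF_evF_jFull N]
    exact RingHom.IsIntegralElem.mul _ (RingHom.isIntegralElem_map _) (H.integral i)
  have hamem : evF N ℓ (jFull N) d₀ * z ∈ chartAlgFin N ℓ :=
    (mem_chartAlg_iff N ℓ).mpr ((isIntegral_adjoin_singleton_iff (jFull N) _).mpr h₂)
  refine ⟨⟨_, hamem⟩, ⟨_, hbmem⟩, ?_, mul_comm _ _⟩
  have hval : valF N (evF N ℓ (jFull N) d₀) = iota ℓ (aeval (jqModC Rl) d₀) :=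
    valF_evF_jFull N ℓ d₀
  have hred : redFin N ℓ ⟨_, hbmem⟩ = red ℓ (aeval (jqModC Rl) d₀) := by
    have h1 : redFin N ℓ ⟨_, hbmem⟩ =
        redV ℓ ⟨iota ℓ (aeval (jqModC Rl) d₀), iota_mem_Vring ℓ _⟩ := by
      show redV ℓ _ = redV ℓ _
      congr 1
      exact Subtype.ext hval
    rw [h1, redV_iota]
  rw [hred, red_aeval]
  exact fun h => hd₀ (eq_zero_of_aeval_jqModC_eq_zero _ h)

theorem exists_red_rel' (hℓN : ¬ ℓ ∣ N) (z : OQ N ℓ) :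
    ∃ (n : ℕ) (d : (ZMod ℓ)[X]) (a : Fin n → (ZMod ℓ)[X]), d ≠ 0 ∧
      redO N ℓ z * aeval (jqModC (ZMod ℓ)) d =
        ∑ i, aeval (jqModC (ZMod ℓ)) (a i) *
          (yUnit (ZMod ℓ) N : LaurentSeries (ZMod ℓ)) ^ (i : ℕ) := by
  obtain ⟨n, H⟩ := exists_interface N ℓ hℓN
  obtain ⟨d₀, a'', hd₀, ha''⟩ := exists_rel N ℓ H z z.2
  refine ⟨n, d₀.map (rho0 ℓ), fun i => (a'' i).map (rho0 ℓ), hd₀, ?_⟩
  obtain ⟨w, hw⟩ := z.2
  rw [redO_eq_redV, redV_eq ℓ _ w hw]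
  rw [← hw, ← toQ_algebraMap, ← toQ_algebraMap, ← map_mul] at ha''
  have h1 := congrArg (toK ℓ) (toQ_injective ℓ ha'')
  rw [map_mul, toK_algebraMap, toK_algebraMap, red_aeval, map_sum] at h1
  rw [h1]
  refine Finset.sum_congr rfl fun i _ => ?_
  rw [map_mul, red_aeval, map_pow, red_yUnit]

end Fermat.Agent.S18.RED262
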